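import Mathlib

/-!
# Program MW (S17), strand H, block E: the formal pairing — abstract core

Mathlib only.  `Pt` is a type of points, `G` an additive group, `cl : Pt → G` the class of a
point (for a curve: the class of `P - ∞`), `lam : Pt → Pt → ℝ` a symmetric "local pairing term"
(for the secant heights of strand H: `lam a b = H a + H b - D a b`).  An effective divisor is
the multiset of its points.

* `cls cl A` : the class of an effective divisor `A`; `pair lam A B` : the pairing
  `∑_{a ∈ A, b ∈ B} lam a b`, exactly biadditive.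
* `PrincipalBound cl lam` (PR): the pairing of a principal effective divisor of bounded degree
  with a point off its support is bounded.  `Moving cl n₀` (MOV): every class contains an
  effective divisor of degree `≤ n₀` avoiding a given finite set.
* E1 `pair_sub_le` : linear-equivalence invariance of the pairing, up to a bounded error.
* E3 `classPair`, `classPair_spec`, `classPair_add_left/right` : the pairing on classes,
  quasi-biadditive.
* E4 `quad`, `quad_parallelogram` : the quasi-parallelogram law; `quad_spec`, `quad_spec_neg` :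
  the value of `quad` through two disjoint representatives.
-/

set_option autoImplicit false

namespace Fermat.Agent.S17.H.Pairing

variable {Pt G : Type*} [AddCommGroup G]

/-- The class of an effective divisor, given as the multiset of its points. -/
def cls (cl : Pt → G) (A : Multiset Pt) : G := (A.map cl).sum

/-- The pairing of two effective divisors: `∑_{a ∈ A, b ∈ B} lam a b`. -/
def pair (lam : Pt → Pt → ℝ) (A B : Multiset Pt) : ℝ :=
  (A.map fun a => (B.map fun b => lam a b).sum).sum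

theorem cls_zero (cl : Pt → G) : cls cl 0 = 0 := by simp [cls]

theorem cls_add (cl : Pt → G) (A B : Multiset Pt) : cls cl (A + B) = cls cl A + cls cl B := by
  simp [cls]

theorem cls_singleton (cl : Pt → G) (a : Pt) : cls cl {a} = cl a := by simp [cls]

theorem pair_zero_left (lam : Pt → Pt → ℝ) (B : Multiset Pt) : pair lam 0 B = 0 := by
  simp [pair]

theorem pair_zero_right (lam : Pt → Pt → ℝ) (A : Multiset Pt) : pair lam A 0 = 0 := by
  simp [pair]

theorem pair_add_left (lam : Pt → Pt → ℝ) (A A' B : Multiset Pt) :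
    pair lam (A + A') B = pair lam A B + pair lam A' B := by
  simp [pair]

theorem pair_add_right (lam : Pt → Pt → ℝ) (A B B' : Multiset Pt) :
    pair lam A (B + B') = pair lam A B + pair lam A B' := by
  simp [pair, Multiset.sum_map_add]

theorem pair_singleton_right (lam : Pt → Pt → ℝ) (A : Multiset Pt) (b : Pt) :
    pair lam A {b} = (A.map fun a => lam a b).sum := by
  simp [pair]

theorem pair_singleton_left (lam : Pt → Pt → ℝ) (a : Pt) (B : Multiset Pt) :
    pair lam {a} B = (B.map fun b => lam a b).sum := by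
  simp [pair]

theorem pair_swap (lam : Pt → Pt → ℝ) (A B : Multiset Pt) :
    pair lam A B = (B.map fun b => (A.map fun a => lam a b).sum).sum := by
  unfold pair
  exact Multiset.sum_map_sum_map A B

theorem pair_comm {lam : Pt → Pt → ℝ} (hsymm : ∀ a b, lam a b = lam b a) (A B : Multiset Pt) :
    pair lam A B = pair lam B A := by
  rw [pair_swap]
  unfold pair
  simp only [hsymm]

theorem sum_map_const_add_sub (B : Multiset Pt) (c : ℝ) (f g : Pt → ℝ) :
    (B.map fun b => c + f b - g b).sum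
      = (B.card : ℝ) * c + (B.map f).sum - (B.map g).sum := by
  induction B using Multiset.induction_on with
  | empty => simp
  | cons b B ih =>
    rw [Multiset.map_cons, Multiset.sum_cons, ih, Multiset.map_cons, Multiset.sum_cons,
      Multiset.map_cons, Multiset.sum_cons, Multiset.card_cons]
    push_cast
    ring

theorem sum_map_add_const_sub (B : Multiset Pt) (c : ℝ) (f g : Pt → ℝ) :
    (B.map fun b => f b + c - g b).sum
      = (B.map f).sum + (B.card : ℝ) * c - (B.map g).sum := by
  induction B using Multiset.induction_on with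
  | empty => simp
  | cons b B ih =>
    rw [Multiset.map_cons, Multiset.sum_cons, ih, Multiset.map_cons, Multiset.sum_cons,
      Multiset.map_cons, Multiset.sum_cons, Multiset.card_cons]
    push_cast
    ring

/-- The pairing in the shape of strand H: for `lam a b = H a + H b - D a b` the pairing is
`deg B * H(A) + deg A * H(B) - ∑ D(a,b)`. -/
theorem pair_of_height (H : Pt → ℝ) (D : Pt → Pt → ℝ) (A B : Multiset Pt) :
    pair (fun a b => H a + H b - D a b) A B
      = (B.card : ℝ) * (A.map H).sum + (A.card : ℝ) * (B.map H).sum - pair D A B := by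
  unfold pair
  induction A using Multiset.induction_on with
  | empty => simp
  | cons a A ih =>
    rw [Multiset.map_cons, Multiset.sum_cons, ih, Multiset.map_cons, Multiset.sum_cons,
      Multiset.map_cons, Multiset.sum_cons, Multiset.card_cons,
      sum_map_const_add_sub B (H a) H (fun b => D a b)]
    push_cast
    ring

theorem abs_sum_map_le {B : Multiset Pt} {g : Pt → ℝ} {c : ℝ} (h : ∀ b ∈ B, |g b| ≤ c) :
    |(B.map g).sum| ≤ (B.card : ℝ) * c := by
  induction B using Multiset.induction_on with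
  | empty => simp
  | cons b B ih =>
    rw [Multiset.map_cons, Multiset.sum_cons, Multiset.card_cons]
    have h1 := h b (Multiset.mem_cons_self b B)
    have h2 := ih fun b' hb' => h b' (Multiset.mem_cons_of_mem hb')
    have h3 := abs_add_le (g b) (B.map g).sum
    push_cast
    linarith

/-- (PR) The pairing of a principal effective divisor of bounded degree with a point off its
support is bounded. -/
def PrincipalBound (cl : Pt → G) (lam : Pt → Pt → ℝ) : Prop :=
  ∀ M : ℕ, ∃ C : ℝ, ∀ (Z : Multiset Pt) (Q : Pt), Z.card ≤ M → cls cl Z = 0 → Q ∉ Z →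
    |(Z.map fun z => lam z Q).sum| ≤ C

/-- (MOV) Every class contains an effective divisor of degree `≤ n₀` avoiding a given finite
set of points. -/
def Moving (cl : Pt → G) (n₀ : ℕ) : Prop :=
  ∀ (x : G) (S : Finset Pt), ∃ R : Multiset Pt, R.card ≤ n₀ ∧ cls cl R = x ∧ ∀ r ∈ R, r ∉ S

/-- (PR) in the shape delivered by the Chow bound D1 and the global distance formula D2 of
strand H: for a principal effective divisor `Z` of bounded degree there is a number `t` (the
height of the coefficient vector of a section with divisor `Z`) with `∑_Z H = t + O(1)` and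
`∑_Z D(z,Q) = t + deg Z * H Q + O(1)` for every `Q` off `Z`. -/
theorem principalBound_of_chow (cl : Pt → G) (H : Pt → ℝ) (D : Pt → Pt → ℝ)
    (h : ∀ M : ℕ, ∃ C : ℝ, ∀ Z : Multiset Pt, Z.card ≤ M → cls cl Z = 0 →
      ∃ t : ℝ, |(Z.map H).sum - t| ≤ C ∧
        ∀ Q : Pt, Q ∉ Z → |(Z.map fun z => D z Q).sum - t - (Z.card : ℝ) * H Q| ≤ C) :
    PrincipalBound cl (fun a b => H a + H b - D a b) := by
  intro M
  obtain ⟨C, hC⟩ := h M
  refine ⟨2 * C, fun Z Q hZ hcl hQ => ?_⟩
  obtain ⟨t, h1, h2⟩ := hC Z hZ hcl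
  have h3 := h2 Q hQ
  have e : (Z.map fun z => H z + H Q - D z Q).sum
      = (Z.map H).sum + (Z.card : ℝ) * H Q - (Z.map fun z => D z Q).sum :=
    sum_map_add_const_sub Z (H Q) H (fun z => D z Q)
  rw [e]
  rw [abs_le] at h1 h3 ⊢
  constructor <;> linarith [h1.1, h1.2, h3.1, h3.2]

section Invariance

variable {cl : Pt → G} {lam : Pt → Pt → ℝ}

/-- E1: the pairing depends on the class of its first argument only, up to a bounded error:
for effective `A`, `A'` of the same class and of bounded degree, both disjoint from `B`. -/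
theorem pair_sub_le (hPR : PrincipalBound cl lam) {n₀ : ℕ} (hMOV : Moving cl n₀) (d : ℕ) :
    ∃ C : ℝ, 0 ≤ C ∧ ∀ A A' B : Multiset Pt, A.card ≤ d → A'.card ≤ d → B.card ≤ d →
      cls cl A = cls cl A' → (∀ b ∈ B, b ∉ A) → (∀ b ∈ B, b ∉ A') →
      |pair lam A B - pair lam A' B| ≤ C := by
  classical
  obtain ⟨C, hC⟩ := hPR (d + n₀)
  have hC0 : 0 ≤ max C 0 := le_max_right _ _
  refine ⟨(d : ℝ) * (2 * max C 0), by positivity, fun A A' B hA hA' hB hcl hdis hdis' => ?_⟩
  obtain ⟨R, hRcard, hRcl, hRdis⟩ := hMOV (-cls cl A) B.toFinset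
  have hZ : cls cl (A + R) = 0 := by rw [cls_add, hRcl, add_neg_cancel]
  have hZ' : cls cl (A' + R) = 0 := by rw [cls_add, hRcl, ← hcl, add_neg_cancel]
  have e : pair lam A B - pair lam A' B
      = (B.map fun b => ((A + R).map fun z => lam z b).sum
          - ((A' + R).map fun z => lam z b).sum).sum := by
    have e1 : pair lam A B - pair lam A' B = pair lam (A + R) B - pair lam (A' + R) B := by
      rw [pair_add_left, pair_add_left]; ring
    rw [e1, pair_swap, pair_swap, ← Multiset.sum_map_sub]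
  rw [e]
  refine le_trans (abs_sum_map_le (c := 2 * max C 0) fun b hb => ?_) ?_
  · have hbR : b ∉ R := fun hbR => hRdis b hbR (Multiset.mem_toFinset.mpr hb)
    have h1 : |((A + R).map fun z => lam z b).sum| ≤ C :=
      hC (A + R) b (by rw [Multiset.card_add]; omega) hZ
        (by rw [Multiset.mem_add]; exact fun h => h.elim (hdis b hb) hbR)
    have h2 : |((A' + R).map fun z => lam z b).sum| ≤ C :=
      hC (A' + R) b (by rw [Multiset.card_add]; omega) hZ'
        (by rw [Multiset.mem_add]; exact fun h => h.elim (hdis' b hb) hbR)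
    have h3 := abs_sub ((A + R).map fun z => lam z b).sum ((A' + R).map fun z => lam z b).sum
    have h4 := le_max_left C 0
    linarith
  · have : (B.card : ℝ) ≤ d := by exact_mod_cast hB
    exact mul_le_mul_of_nonneg_right this (by positivity)

end Invariance

section ClassPairing

open Classical in
/-- E3: the pairing on classes, through a chosen pair of disjoint representatives of
degree `≤ n₀`. -/
noncomputable def classPair (cl : Pt → G) (lam : Pt → Pt → ℝ) (n₀ : ℕ) (x y : G) : ℝ :=
  if h : ∃ AB : Multiset Pt × Multiset Pt, AB.1.card ≤ n₀ ∧ AB.2.card ≤ n₀ ∧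
      cls cl AB.1 = x ∧ cls cl AB.2 = y ∧ ∀ b ∈ AB.2, b ∉ AB.1
  then pair lam h.choose.1 h.choose.2 else 0

/-- The quasi-quadratic function of block E: `quad x = classPair x x`. -/
noncomputable def quad (cl : Pt → G) (lam : Pt → Pt → ℝ) (n₀ : ℕ) (x : G) : ℝ :=
  classPair cl lam n₀ x x

variable {cl : Pt → G} {lam : Pt → Pt → ℝ}

theorem exists_disjoint_reps {n₀ : ℕ} (hMOV : Moving cl n₀) (x y : G) :
    ∃ AB : Multiset Pt × Multiset Pt, AB.1.card ≤ n₀ ∧ AB.2.card ≤ n₀ ∧
      cls cl AB.1 = x ∧ cls cl AB.2 = y ∧ ∀ b ∈ AB.2, b ∉ AB.1 := by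
  classical
  obtain ⟨A, hA, hAcl, -⟩ := hMOV x ∅
  obtain ⟨B, hB, hBcl, hBdis⟩ := hMOV y A.toFinset
  exact ⟨(A, B), hA, hB, hAcl, hBcl, fun b hb hbA => hBdis b hb (Multiset.mem_toFinset.mpr hbA)⟩

/-- E3 (representation): `classPair` is computed, up to a bounded error, by ANY pair of
disjoint effective representatives of bounded degree. -/
theorem classPair_spec (hsymm : ∀ a b, lam a b = lam b a) (hPR : PrincipalBound cl lam)
    {n₀ : ℕ} (hMOV : Moving cl n₀) (d : ℕ) :
    ∃ C : ℝ, 0 ≤ C ∧ ∀ A B : Multiset Pt, A.card ≤ d → B.card ≤ d → (∀ b ∈ B, b ∉ A) →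
      |classPair cl lam n₀ (cls cl A) (cls cl B) - pair lam A B| ≤ C := by
  classical
  obtain ⟨C, hC0, hC⟩ := pair_sub_le hPR hMOV (max d n₀)
  refine ⟨3 * C, by positivity, fun A B hA hB hdis => ?_⟩
  have hex := exists_disjoint_reps hMOV (cls cl A) (cls cl B)
  have hdef : classPair cl lam n₀ (cls cl A) (cls cl B)
      = pair lam hex.choose.1 hex.choose.2 := by
    unfold classPair
    rw [dif_pos hex]
  obtain ⟨h1, h2, h3, h4, h5⟩ := hex.choose_spec
  rw [hdef]
  set A₀ := hex.choose.1
  set B₀ := hex.choose.2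
  obtain ⟨A₁, hA₁, hA₁cl, hA₁dis⟩ := hMOV (cls cl A) (B + B₀).toFinset
  have hA₁B : ∀ b ∈ B, b ∉ A₁ := fun b hb hbA =>
    hA₁dis b hbA (Multiset.mem_toFinset.mpr (Multiset.mem_add.mpr (Or.inl hb)))
  have hA₁B₀ : ∀ b ∈ B₀, b ∉ A₁ := fun b hb hbA =>
    hA₁dis b hbA (Multiset.mem_toFinset.mpr (Multiset.mem_add.mpr (Or.inr hb)))
  have hd : d ≤ max d n₀ := le_max_left _ _
  have hn : n₀ ≤ max d n₀ := le_max_right _ _
  -- step 1: `A₀ → A₁` against `B₀`
  have s1 : |pair lam A₀ B₀ - pair lam A₁ B₀| ≤ C :=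
    hC A₀ A₁ B₀ (h1.trans hn) (hA₁.trans hn) (h2.trans hn) (h3.trans hA₁cl.symm) h5 hA₁B₀
  -- step 2: `B₀ → B` against `A₁`
  have s2 : |pair lam B₀ A₁ - pair lam B A₁| ≤ C :=
    hC B₀ B A₁ (h2.trans hn) (hB.trans hd) (hA₁.trans hn) h4
      (fun a ha haB => hA₁B₀ a haB ha) (fun a ha haB => hA₁B a haB ha)
  -- step 3: `A₁ → A` against `B`
  have s3 : |pair lam A₁ B - pair lam A B| ≤ C :=
    hC A₁ A B (hA₁.trans hn) (hA.trans hd) (hB.trans hd) hA₁cl hA₁B hdis
  rw [pair_comm hsymm B₀ A₁, pair_comm hsymm B A₁] at s2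
  rw [abs_le] at s1 s2 s3 ⊢
  constructor <;> linarith [s1.1, s1.2, s2.1, s2.2, s3.1, s3.2]

/-- E3: `classPair` is quasi-additive in the first variable. -/
theorem classPair_add_left (hsymm : ∀ a b, lam a b = lam b a) (hPR : PrincipalBound cl lam)
    {n₀ : ℕ} (hMOV : Moving cl n₀) :
    ∃ C : ℝ, 0 ≤ C ∧ ∀ x x' y : G,
      |classPair cl lam n₀ (x + x') y - classPair cl lam n₀ x y - classPair cl lam n₀ x' y|
        ≤ C := by
  classical
  obtain ⟨C, hC0, hC⟩ := classPair_spec hsymm hPR hMOV (2 * n₀)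
  refine ⟨3 * C, by positivity, fun x x' y => ?_⟩
  obtain ⟨B, hB, hBcl, -⟩ := hMOV y ∅
  obtain ⟨A, hA, hAcl, hAdis⟩ := hMOV x B.toFinset
  obtain ⟨A', hA', hA'cl, hA'dis⟩ := hMOV x' B.toFinset
  have hAB : ∀ b ∈ B, b ∉ A := fun b hb hbA => hAdis b hbA (Multiset.mem_toFinset.mpr hb)
  have hA'B : ∀ b ∈ B, b ∉ A' := fun b hb hbA => hA'dis b hbA (Multiset.mem_toFinset.mpr hb)
  have s1 := hC (A + A') B (by rw [Multiset.card_add]; omega) (by omega)
    (fun b hb hbA => (Multiset.mem_add.mp hbA).elim (hAB b hb) (hA'B b hb))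
  have s2 := hC A B (by omega) (by omega) hAB
  have s3 := hC A' B (by omega) (by omega) hA'B
  rw [cls_add, hAcl, hA'cl, hBcl, pair_add_left] at s1
  rw [hAcl, hBcl] at s2
  rw [hA'cl, hBcl] at s3
  rw [abs_le] at s1 s2 s3 ⊢
  constructor <;> linarith [s1.1, s1.2, s2.1, s2.2, s3.1, s3.2]

/-- E3: `classPair` is quasi-additive in the second variable. -/
theorem classPair_add_right (hsymm : ∀ a b, lam a b = lam b a) (hPR : PrincipalBound cl lam)
    {n₀ : ℕ} (hMOV : Moving cl n₀) :
    ∃ C : ℝ, 0 ≤ C ∧ ∀ x y y' : G,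
      |classPair cl lam n₀ x (y + y') - classPair cl lam n₀ x y - classPair cl lam n₀ x y'|
        ≤ C := by
  classical
  obtain ⟨C, hC0, hC⟩ := classPair_spec hsymm hPR hMOV (2 * n₀)
  refine ⟨3 * C, by positivity, fun x y y' => ?_⟩
  obtain ⟨A, hA, hAcl, -⟩ := hMOV x ∅
  obtain ⟨B, hB, hBcl, hBdis⟩ := hMOV y A.toFinset
  obtain ⟨B', hB', hB'cl, hB'dis⟩ := hMOV y' A.toFinset
  have hAB : ∀ b ∈ B, b ∉ A := fun b hb hbA => hBdis b hb (Multiset.mem_toFinset.mpr hbA)
  have hAB' : ∀ b ∈ B', b ∉ A := fun b hb hbA => hB'dis b hb (Multiset.mem_toFinset.mpr hbA)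
  have s1 := hC A (B + B') (by omega) (by rw [Multiset.card_add]; omega)
    (fun b hb => (Multiset.mem_add.mp hb).elim (hAB b) (hAB' b))
  have s2 := hC A B (by omega) (by omega) hAB
  have s3 := hC A B' (by omega) (by omega) hAB'
  rw [cls_add, hAcl, hBcl, hB'cl, pair_add_right] at s1
  rw [hAcl, hBcl] at s2
  rw [hAcl, hB'cl] at s3
  rw [abs_le] at s1 s2 s3 ⊢
  constructor <;> linarith [s1.1, s1.2, s2.1, s2.2, s3.1, s3.2]

/-- E3: `classPair` is quasi-symmetric. -/
theorem classPair_symm (hsymm : ∀ a b, lam a b = lam b a) (hPR : PrincipalBound cl lam)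
    {n₀ : ℕ} (hMOV : Moving cl n₀) :
    ∃ C : ℝ, 0 ≤ C ∧ ∀ x y : G, |classPair cl lam n₀ x y - classPair cl lam n₀ y x| ≤ C := by
  classical
  obtain ⟨C, hC0, hC⟩ := classPair_spec hsymm hPR hMOV n₀
  refine ⟨2 * C, by positivity, fun x y => ?_⟩
  obtain ⟨⟨A, B⟩, hA, hB, hAcl, hBcl, hdis⟩ := exists_disjoint_reps hMOV x y
  have s1 := hC A B hA hB hdis
  have s2 := hC B A hB hA (fun a ha haB => hdis a haB ha)
  simp only at hAcl hBcl
  rw [hAcl, hBcl] at s1 s2
  rw [pair_comm hsymm B A] at s2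
  rw [abs_le] at s1 s2 ⊢
  constructor <;> linarith [s1.1, s1.2, s2.1, s2.2]

end ClassPairing

section Parallelogram

/-- E4 (pure algebra): a quasi-biadditive function `p` on an additive group gives a
quasi-quadratic function `x ↦ p x x`. -/
theorem quasi_parallelogram_of_biadditive {p : G → G → ℝ} {C : ℝ}
    (hl : ∀ x x' y, |p (x + x') y - p x y - p x' y| ≤ C)
    (hr : ∀ x y y', |p x (y + y') - p x y - p x y'| ≤ C) (x y : G) :
    |p (x + y) (x + y) + p (x - y) (x - y) - 2 * (p x x + p y y)| ≤ 14 * C := by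
  have hr0 : ∀ u : G, |p u 0| ≤ C := fun u => by
    have := hr u 0 0
    rw [add_zero] at this
    rw [abs_le] at this ⊢
    constructor <;> linarith [this.1, this.2]
  have hl0 : ∀ u : G, |p 0 u| ≤ C := fun u => by
    have := hl 0 0 u
    rw [add_zero] at this
    rw [abs_le] at this ⊢
    constructor <;> linarith [this.1, this.2]
  -- `p u (-v) + p u v` and `p (-v) u + p v u` are bounded by `2 C`
  have hrn : ∀ u v : G, |p u (-v) + p u v| ≤ 2 * C := fun u v => by
    have h1 := hr u v (-v)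
    rw [add_neg_cancel] at h1
    have h2 := hr0 u
    rw [abs_le] at h1 h2 ⊢
    constructor <;> linarith [h1.1, h1.2, h2.1, h2.2]
  have hln : ∀ u v : G, |p (-v) u + p v u| ≤ 2 * C := fun u v => by
    have h1 := hl v (-v) u
    rw [add_neg_cancel] at h1
    have h2 := hl0 u
    rw [abs_le] at h1 h2 ⊢
    constructor <;> linarith [h1.1, h1.2, h2.1, h2.2]
  have a1 := hl x y (x + y)
  have a2 := hr x x y
  have a3 := hr y x y
  have b1 := hl x (-y) (x + -y)
  have b2 := hr x x (-y)
  have b3 := hr (-y) x (-y)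
  have c1 := hrn x y
  have c2 := hln x y
  have c3 := hln (-y) y
  have c4 := hrn y y
  have e : x - y = x + -y := sub_eq_add_neg x y
  rw [e]
  rw [abs_le] at a1 a2 a3 b1 b2 b3 c1 c2 c3 c4 ⊢
  constructor <;>
    linarith [a1.1, a1.2, a2.1, a2.2, a3.1, a3.2, b1.1, b1.2, b2.1, b2.2, b3.1, b3.2,
      c1.1, c1.2, c2.1, c2.2, c3.1, c3.2, c4.1, c4.2]

variable {Pt : Type*} {cl : Pt → G} {lam : Pt → Pt → ℝ}

/-- E4: the quasi-parallelogram law for `quad`. -/
theorem quad_parallelogram (hsymm : ∀ a b, lam a b = lam b a) (hPR : PrincipalBound cl lam)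
    {n₀ : ℕ} (hMOV : Moving cl n₀) :
    ∃ C : ℝ, ∀ x y : G,
      |quad cl lam n₀ (x + y) + quad cl lam n₀ (x - y)
        - 2 * (quad cl lam n₀ x + quad cl lam n₀ y)| ≤ C := by
  obtain ⟨C₁, hC₁, h1⟩ := classPair_add_left hsymm hPR hMOV
  obtain ⟨C₂, hC₂, h2⟩ := classPair_add_right hsymm hPR hMOV
  refine ⟨14 * max C₁ C₂, fun x y => ?_⟩
  exact quasi_parallelogram_of_biadditive (p := classPair cl lam n₀)
    (fun x x' y => (h1 x x' y).trans (le_max_left _ _))
    (fun x y y' => (h2 x y y').trans (le_max_right _ _)) x y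

/-- `quad x` is the pairing of two DISJOINT effective representatives of the class `x`, up to
a bounded error. -/
theorem quad_spec (hsymm : ∀ a b, lam a b = lam b a) (hPR : PrincipalBound cl lam)
    {n₀ : ℕ} (hMOV : Moving cl n₀) (d : ℕ) :
    ∃ C : ℝ, ∀ A A' : Multiset Pt, A.card ≤ d → A'.card ≤ d → (∀ b ∈ A', b ∉ A) →
      cls cl A = cls cl A' → |quad cl lam n₀ (cls cl A) - pair lam A A'| ≤ C := by
  obtain ⟨C, -, hC⟩ := classPair_spec hsymm hPR hMOV d
  refine ⟨C, fun A A' hA hA' hdis hcl => ?_⟩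
  have := hC A A' hA hA' hdis
  rw [← hcl] at this
  exact this

/-- `quad x` is MINUS the pairing of an effective representative `A` of `x` with a disjoint
effective representative `B` of `-x`, up to a bounded error. -/
theorem quad_spec_neg (hsymm : ∀ a b, lam a b = lam b a) (hPR : PrincipalBound cl lam)
    {n₀ : ℕ} (hMOV : Moving cl n₀) (d : ℕ) :
    ∃ C : ℝ, ∀ A B : Multiset Pt, A.card ≤ d → B.card ≤ d → (∀ b ∈ B, b ∉ A) →
      cls cl A + cls cl B = 0 → |quad cl lam n₀ (cls cl A) + pair lam A B| ≤ C := by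
  obtain ⟨C, hC0, hC⟩ := classPair_spec hsymm hPR hMOV d
  obtain ⟨C₂, hC₂, h2⟩ := classPair_add_right hsymm hPR hMOV
  refine ⟨C + 2 * C₂, fun A B hA hB hdis hcl => ?_⟩
  have hB' : cls cl B = -cls cl A := eq_neg_of_add_eq_zero_right hcl
  have s1 := hC A B hA hB hdis
  rw [hB'] at s1
  have s2 := h2 (cls cl A) (cls cl A) (-cls cl A)
  rw [add_neg_cancel] at s2
  have s3 := h2 (cls cl A) 0 0
  rw [add_zero] at s3
  unfold quad
  rw [abs_le] at s1 s2 s3 ⊢
  constructor <;> linarith [s1.1, s1.2, s2.1, s2.2, s3.1, s3.2]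

end Parallelogram

end Fermat.Agent.S17.H.Pairing
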