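import Mathlib
import Fermat.Agent.S17.H.Pairing.Core

/-!
# Program MW (S17), strand H, block E: the local pairing term switched off at the base point

`lamOff v₀ H D a b = H a + H b - D a b` for `a, b ≠ v₀` and `0` as soon as one of the two points
is the base point `v₀` (the cusp `∞`).  With this kernel the base point contributes nothing to
the pairing: `pair (A + j·v₀) B = pair A B` EXACTLY (E2 of the contract), and the principal
bound (PR) is needed only for divisors and points OFF `v₀` — no convention for `H v₀` or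
`D v₀ Q` is consumed.

* `pair_lamOff` : for divisors off `v₀` the pairing is
  `deg B * H(A) + deg A * H(B) - ∑ D(a,b)`.
* `pair_val` : the pairing of two finsets as a double `Finset` sum (adapter for block F).
* `principalBound_lamOff` : (PR) for `lamOff` from the Chow bound D1 and the global distance
  formula D2 off `v₀`.
-/

set_option autoImplicit false

namespace Fermat.Agent.S17.H.Pairing

variable {Pt G : Type*} [AddCommGroup G]

open Classical in
/-- The local pairing term of strand H, switched off at the base point `v₀`. -/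
noncomputable def lamOff (v₀ : Pt) (H : Pt → ℝ) (D : Pt → Pt → ℝ) (a b : Pt) : ℝ :=
  if a = v₀ ∨ b = v₀ then 0 else H a + H b - D a b

theorem lamOff_of_ne {v₀ : Pt} (H : Pt → ℝ) (D : Pt → Pt → ℝ) {a b : Pt} (ha : a ≠ v₀)
    (hb : b ≠ v₀) : lamOff v₀ H D a b = H a + H b - D a b := by
  unfold lamOff
  rw [if_neg]
  rintro (h | h)
  · exact ha h
  · exact hb h

theorem lamOff_left (v₀ : Pt) (H : Pt → ℝ) (D : Pt → Pt → ℝ) (b : Pt) :
    lamOff v₀ H D v₀ b = 0 := by
  unfold lamOff
  rw [if_pos (Or.inl rfl)]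

theorem lamOff_right (v₀ : Pt) (H : Pt → ℝ) (D : Pt → Pt → ℝ) (a : Pt) :
    lamOff v₀ H D a v₀ = 0 := by
  unfold lamOff
  rw [if_pos (Or.inr rfl)]

theorem lamOff_symm (v₀ : Pt) (H : Pt → ℝ) {D : Pt → Pt → ℝ} (hD : ∀ a b, D a b = D b a)
    (a b : Pt) : lamOff v₀ H D a b = lamOff v₀ H D b a := by
  by_cases ha : a = v₀
  · rw [ha, lamOff_left, lamOff_right]
  · by_cases hb : b = v₀
    · rw [hb, lamOff_left, lamOff_right]
    · rw [lamOff_of_ne H D ha hb, lamOff_of_ne H D hb ha, hD a b]
      ring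

/-- If block D's conventions at the base point hold (`H v₀ = 0`, `D v₀ Q = D Q v₀ = H Q`), the
switch is invisible. -/
theorem lamOff_eq_of_conventions {v₀ : Pt} {H : Pt → ℝ} {D : Pt → Pt → ℝ} (hH : H v₀ = 0)
    (hD : ∀ Q, D v₀ Q = H Q ∧ D Q v₀ = H Q) :
    lamOff v₀ H D = fun a b => H a + H b - D a b := by
  funext a b
  by_cases ha : a = v₀
  · rw [ha, lamOff_left, hH, (hD b).1]
    ring
  · by_cases hb : b = v₀
    · rw [hb, lamOff_right, hH, (hD a).2]
      ring
    · exact lamOff_of_ne H D ha hb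

theorem pair_congr {lam lam' : Pt → Pt → ℝ} {A B : Multiset Pt}
    (h : ∀ a ∈ A, ∀ b ∈ B, lam a b = lam' a b) : pair lam A B = pair lam' A B := by
  unfold pair
  refine congrArg Multiset.sum (Multiset.map_congr rfl fun a ha => ?_)
  exact congrArg Multiset.sum (Multiset.map_congr rfl fun b hb => h a ha b hb)

theorem pair_eq_zero {lam : Pt → Pt → ℝ} {A B : Multiset Pt}
    (h : ∀ a ∈ A, ∀ b ∈ B, lam a b = 0) : pair lam A B = 0 := by
  rw [pair_congr (lam' := fun _ _ => 0) h]
  simp [pair]

/-- For divisors off the base point, the pairing with kernel `lamOff` is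
`deg B * H(A) + deg A * H(B) - ∑ D(a,b)`. -/
theorem pair_lamOff (v₀ : Pt) (H : Pt → ℝ) (D : Pt → Pt → ℝ) {A B : Multiset Pt}
    (hA : ∀ a ∈ A, a ≠ v₀) (hB : ∀ b ∈ B, b ≠ v₀) :
    pair (lamOff v₀ H D) A B
      = (B.card : ℝ) * (A.map H).sum + (A.card : ℝ) * (B.map H).sum - pair D A B := by
  rw [← pair_of_height]
  exact pair_congr fun a ha b hb => lamOff_of_ne H D (hA a ha) (hB b hb)

/-- E2 of the contract: adding multiples of the base point does not change the pairing. -/
theorem pair_lamOff_add_base_left (v₀ : Pt) (H : Pt → ℝ) (D : Pt → Pt → ℝ) (A B : Multiset Pt)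
    (j : ℕ) : pair (lamOff v₀ H D) (A + Multiset.replicate j v₀) B = pair (lamOff v₀ H D) A B := by
  rw [pair_add_left, add_eq_left]
  refine pair_eq_zero fun a ha b _ => ?_
  rw [Multiset.eq_of_mem_replicate ha, lamOff_left]

theorem pair_lamOff_add_base_right (v₀ : Pt) (H : Pt → ℝ) (D : Pt → Pt → ℝ) (A B : Multiset Pt)
    (j : ℕ) : pair (lamOff v₀ H D) A (B + Multiset.replicate j v₀) = pair (lamOff v₀ H D) A B := by
  rw [pair_add_right, add_eq_left]
  refine pair_eq_zero fun a _ b hb => ?_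
  rw [Multiset.eq_of_mem_replicate hb, lamOff_right]

/-- The pairing of two finsets as a double `Finset` sum. -/
theorem pair_val (lam : Pt → Pt → ℝ) (A B : Finset Pt) :
    pair lam A.val B.val = ∑ a ∈ A, ∑ b ∈ B, lam a b := rfl

/-- The pairing of two finsets off the base point, in the `Finset` shape of block F. -/
theorem pair_lamOff_val (v₀ : Pt) (H : Pt → ℝ) (D : Pt → Pt → ℝ) {A B : Finset Pt}
    (hA : v₀ ∉ A) (hB : v₀ ∉ B) :
    pair (lamOff v₀ H D) A.val B.val
      = (B.card : ℝ) * ∑ a ∈ A, H a + (A.card : ℝ) * ∑ b ∈ B, H b - ∑ a ∈ A, ∑ b ∈ B, D a b := by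
  rw [pair_lamOff v₀ H D (fun a ha h => hA (h ▸ Finset.mem_val.mp ha))
    (fun b hb h => hB (h ▸ Finset.mem_val.mp hb))]
  rfl

/-- (PR) for the kernel `lamOff`, from the Chow bound D1 and the global distance formula D2
for principal effective divisors and points OFF the base point: there is a number `t` (the
height of the coefficient vector of a section with divisor `Z`) with `∑_Z H = t + O(1)` and
`∑_Z D(z,Q) = t + deg Z * H Q + O(1)`. -/
theorem principalBound_lamOff (cl : Pt → G) (v₀ : Pt) (hcl₀ : cl v₀ = 0) (H : Pt → ℝ)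
    (D : Pt → Pt → ℝ)
    (h : ∀ M : ℕ, ∃ C : ℝ, ∀ Z : Multiset Pt, Z.card ≤ M → (∀ z ∈ Z, z ≠ v₀) → cls cl Z = 0 →
      ∃ t : ℝ, |(Z.map H).sum - t| ≤ C ∧
        ∀ Q : Pt, Q ≠ v₀ → Q ∉ Z → |(Z.map fun z => D z Q).sum - t - (Z.card : ℝ) * H Q| ≤ C) :
    PrincipalBound cl (lamOff v₀ H D) := by
  classical
  intro M
  obtain ⟨C, hC⟩ := h M
  refine ⟨2 * max C 0, fun Z Q hZ hcl hQ => ?_⟩
  have hC0 : 0 ≤ max C 0 := le_max_right _ _
  by_cases hQ0 : Q = v₀
  · have h0 : (Z.map fun z => lamOff v₀ H D z Q).sum = 0 := by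
      refine Multiset.sum_eq_zero fun x hx => ?_
      obtain ⟨z, -, rfl⟩ := Multiset.mem_map.mp hx
      rw [hQ0, lamOff_right]
    rw [h0, abs_zero]
    positivity
  · have hsplit : Z.filter (fun z => z ≠ v₀) + Z.filter (fun z => ¬ z ≠ v₀) = Z :=
      Multiset.filter_add_not _ Z
    have hbase : ∀ z ∈ Z.filter (fun z => ¬ z ≠ v₀), z = v₀ := fun z hz =>
      not_not.mp (Multiset.mem_filter.mp hz).2
    have hoff : ∀ z ∈ Z.filter (fun z => z ≠ v₀), z ≠ v₀ := fun z hz =>
      (Multiset.mem_filter.mp hz).2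
    have hsum : (Z.map fun z => lamOff v₀ H D z Q).sum
        = ((Z.filter fun z => z ≠ v₀).map fun z => H z + H Q - D z Q).sum := by
      conv_lhs => rw [← hsplit]
      rw [Multiset.map_add, Multiset.sum_add]
      have h0 : ((Z.filter fun z => ¬ z ≠ v₀).map fun z => lamOff v₀ H D z Q).sum = 0 := by
        refine Multiset.sum_eq_zero fun x hx => ?_
        obtain ⟨z, hz, rfl⟩ := Multiset.mem_map.mp hx
        rw [hbase z hz, lamOff_left]
      rw [h0, add_zero]
      exact congrArg Multiset.sum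
        (Multiset.map_congr rfl fun z hz => lamOff_of_ne H D (hoff z hz) hQ0)
    have hcard : (Z.filter fun z => z ≠ v₀).card ≤ M :=
      (Multiset.card_le_card (Multiset.filter_le _ Z)).trans hZ
    have hcl' : cls cl (Z.filter fun z => z ≠ v₀) = 0 := by
      have e := congrArg (cls cl) hsplit
      rw [cls_add, hcl] at e
      have h0 : cls cl (Z.filter fun z => ¬ z ≠ v₀) = 0 := by
        unfold cls
        refine Multiset.sum_eq_zero fun x hx => ?_
        obtain ⟨z, hz, rfl⟩ := Multiset.mem_map.mp hx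
        rw [hbase z hz, hcl₀]
      rw [h0, add_zero] at e
      exact e
    obtain ⟨t, h1, h2⟩ := hC _ hcard hoff hcl'
    have h3 := h2 Q hQ0 (fun hq => hQ (Multiset.mem_of_mem_filter hq))
    rw [hsum, sum_map_add_const_sub _ (H Q) H (fun z => D z Q)]
    have h4 := le_max_left C 0
    rw [abs_le] at h1 h3 ⊢
    constructor <;> linarith [h1.1, h1.2, h3.1, h3.2]

end Fermat.Agent.S17.H.Pairing
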