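import Mathlib
import Fermat.Agent.S17.H.Pairing.LamOff
import Fermat.Agent.S17.H.E.MovingEff
import Fermat.Agent.S17.R.LSpace

/-!
# Program MW (S17), strand H, block E: the principal bound (PR) on a curve

`K` algebraically closed, `F` a function field of one variable over `K`, `v₀` a base place,
`cl = MovingEff.ptClass htr v₀` (the class of `P - v₀` in `Pic0 K F`).

* `finsum_mem_ne_eq_sum_map` : the dictionary between "the sum over the zeros of `s` off `v₀`,
  with multiplicity" written as a `finsum` over places (the shape of the exits of block D) and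
  the sum over a multiset of points.
* `exists_section_of_cls_eq_zero` : a multiset `Z` of places off `v₀` with class zero is the
  divisor of zeros of a function `s` with its only pole at `v₀`, of order `#Z`.
* `principalBound_curve` : (PR) for the kernel `lamOff v₀ H D` from the Chow bound D1 and the
  global distance formula D2, both in the `finsum` shape.
-/

set_option autoImplicit false

namespace Fermat.Agent.S17.H.Pairing

open AlgebraicCurve Fermat.Agent.S17.R Fermat.Agent.S17.H.MovingEff

section Abstract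

variable {Pt : Type*}

open Classical in
theorem finsum_count_mul (Z : Multiset Pt) (f : Pt → ℝ) :
    ∑ᶠ v, (Z.count v : ℝ) * f v = (Z.map f).sum := by
  rw [Finset.sum_multiset_map_count, finsum_eq_sum_of_support_subset (s := Z.toFinset)]
  · exact Finset.sum_congr rfl fun v _ => by rw [nsmul_eq_mul]
  · intro v hv
    rw [Function.mem_support] at hv
    rw [Finset.mem_coe, Multiset.mem_toFinset]
    by_contra h
    exact hv (by rw [Multiset.count_eq_zero_of_notMem h]; simp)

open Classical in
/-- A `finsum` over the points different from `v₀` of a function which is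
`multiplicity * f` is the sum of `f` over the multiset. -/
theorem finsum_mem_ne_eq_sum_map (v₀ : Pt) (g : Pt → ℝ) {Z : Multiset Pt} (hZ : v₀ ∉ Z)
    (f : Pt → ℝ) (hg : ∀ v, v ≠ v₀ → g v = (Z.count v : ℝ) * f v) :
    ∑ᶠ v ∈ {v : Pt | v ≠ v₀}, g v = (Z.map f).sum := by
  rw [← finsum_count_mul, finsum_mem_def]
  refine finsum_congr fun v => ?_
  by_cases hv : v = v₀
  · rw [Set.indicator_of_notMem (by simp [hv]), hv, Multiset.count_eq_zero_of_notMem hZ]
    simp
  · rw [Set.indicator_of_mem (by simpa using hv), hg v hv]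

end Abstract

variable {K F : Type*} [Field K] [Field F] [Algebra K F] [IsAlgClosed K]

theorem ptClass_self (htr : Algebra.trdeg K F = 1) (v₀ : Place K F) :
    ptClass htr v₀ v₀ = 0 := by
  unfold ptClass
  have e : (⟨Finsupp.single v₀ 1 - Finsupp.single v₀ 1,
      single_sub_single_mem_degZero htr v₀ v₀⟩ : Divisor.degZero (K := K) (F := F)) = 0 :=
    Subtype.ext (sub_self _)
  rw [e]
  exact Pic0.mk_zero

open Classical in
/-- The class of a multiset of places is the class of the divisor `Z - #Z • v₀`. -/
theorem cls_ptClass_eq_mk (htr : Algebra.trdeg K F = 1) (v₀ : Place K F)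
    (Z : Multiset (Place K F)) :
    ∃ E : Divisor.degZero (K := K) (F := F), cls (ptClass htr v₀) Z = Pic0.mk E ∧
      ∀ v : Place K F, (E : Divisor K F) v
        = (Z.count v : ℤ) - if v = v₀ then (Z.card : ℤ) else 0 := by
  induction Z using Multiset.induction_on with
  | empty =>
    refine ⟨0, ?_, fun v => ?_⟩
    · rw [cls_zero]
      exact Pic0.mk_zero.symm
    · simp
  | cons a Z ih =>
    obtain ⟨E, hE, hEv⟩ := ih
    refine ⟨⟨Finsupp.single a 1 - Finsupp.single v₀ 1,
      single_sub_single_mem_degZero htr v₀ a⟩ + E, ?_, fun v => ?_⟩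
    · have e1 : cls (ptClass htr v₀) (a ::ₘ Z) = ptClass htr v₀ a + cls (ptClass htr v₀) Z := by
        simp [cls]
      rw [e1, hE, Pic0.mk_add]
      rfl
    · rw [AddSubgroup.coe_add, Finsupp.add_apply, hEv v, Finsupp.sub_apply,
        Finsupp.single_apply, Finsupp.single_apply, Multiset.count_cons, Multiset.card_cons]
      by_cases h1 : v = a
      · by_cases h2 : v = v₀
        · have h3 : a = v := h1.symm
          have h4 : v₀ = v := h2.symm
          simp only [if_pos h1, if_pos h2, if_pos h3, if_pos h4]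
          push_cast
          ring
        · have h3 : a = v := h1.symm
          have h4 : ¬ v₀ = v := fun h => h2 h.symm
          simp only [if_pos h1, if_neg h2, if_pos h3, if_neg h4]
          push_cast
          ring
      · by_cases h2 : v = v₀
        · have h3 : ¬ a = v := fun h => h1 h.symm
          have h4 : v₀ = v := h2.symm
          simp only [if_neg h1, if_pos h2, if_neg h3, if_pos h4]
          push_cast
          ring
        · have h3 : ¬ a = v := fun h => h1 h.symm
          have h4 : ¬ v₀ = v := fun h => h2 h.symm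
          simp only [if_neg h1, if_neg h2, if_neg h3, if_neg h4]
          push_cast
          ring

open Classical in
/-- A multiset `Z` of places off `v₀` whose class is zero is the divisor of zeros of a
function `s` whose only pole is at `v₀`, of order `#Z`. -/
theorem exists_section_of_cls_eq_zero (htr : Algebra.trdeg K F = 1) (v₀ : Place K F)
    {Z : Multiset (Place K F)} (hZ : ∀ z ∈ Z, z ≠ v₀) (hcl : cls (ptClass htr v₀) Z = 0) :
    ∃ s : F, s ≠ 0 ∧ (∀ v : Place K F, v ≠ v₀ → v.ord s = (Z.count v : ℤ)) ∧
      v₀.ord s = -(Z.card : ℤ) := by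
  obtain ⟨E, hE, hEv⟩ := cls_ptClass_eq_mk htr v₀ Z
  rw [hcl] at hE
  have h1 : E ∈ (Divisor.principal (K := K) (F := F)).addSubgroupOf
      (Divisor.degZero (K := K) (F := F)) :=
    (QuotientAddGroup.eq_zero_iff E).mp hE.symm
  rw [AddSubgroup.mem_addSubgroupOf, Divisor.mem_principal] at h1
  obtain ⟨s, hs, hsv⟩ := h1
  refine ⟨s, hs, fun v hv => ?_, ?_⟩
  · rw [← hsv v, hEv v, if_neg hv, sub_zero]
  · have hv₀ : v₀ ∉ Z := fun h => hZ v₀ h rfl
    rw [← hsv v₀, hEv v₀, if_pos rfl, Multiset.count_eq_zero_of_notMem hv₀]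
    simp

/-- **(PR) on a curve**, for the kernel `lamOff v₀ H D`, from the exits of block D in the
`finsum` shape: for every `s ≠ 0` in `L(M v₀)` there is a number `t` (the height of the
coefficient vector of `s`) such that the sum of `H` over the zeros of `s` off `v₀` is
`t + O(1)` (D1, the Chow bound) and, for every place `Q ≠ v₀` which is not a zero of `s`, the
sum of `D(·, Q)` over the zeros of `s` off `v₀` is `t + (number of these zeros) * H Q + O(1)`
(D2; the number of zeros off `v₀` is `-v₀.ord s`). -/
theorem principalBound_curve (htr : Algebra.trdeg K F = 1) (v₀ : Place K F)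
    (H : Place K F → ℝ) (D : Place K F → Place K F → ℝ)
    (hD12 : ∀ M : ℕ, ∃ C : ℝ, ∀ s : F, s ≠ 0 →
      s ∈ riemannRochSpace ((M : ℤ) • Finsupp.single v₀ (1 : ℤ)) →
      ∃ t : ℝ, |(∑ᶠ v ∈ {v : Place K F | v ≠ v₀}, ((v.ord s : ℤ) : ℝ) * H v) - t| ≤ C ∧
        ∀ Q : Place K F, Q ≠ v₀ → Q.ord s = 0 →
          |(∑ᶠ v ∈ {v : Place K F | v ≠ v₀}, ((v.ord s : ℤ) : ℝ) * D v Q) - t
            + ((v₀.ord s : ℤ) : ℝ) * H Q| ≤ C) :
    PrincipalBound (ptClass htr v₀) (lamOff v₀ H D) := by
  classical
  refine principalBound_lamOff (ptClass htr v₀) v₀ (ptClass_self htr v₀) H D fun M => ?_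
  obtain ⟨C, hC⟩ := hD12 M
  refine ⟨C, fun Z hZcard hZ hcl => ?_⟩
  obtain ⟨s, hs, hsv, hs₀⟩ := exists_section_of_cls_eq_zero htr v₀ hZ hcl
  have hv₀ : v₀ ∉ Z := fun h => hZ v₀ h rfl
  have hmem : s ∈ riemannRochSpace ((M : ℤ) • Finsupp.single v₀ (1 : ℤ)) := by
    rw [mem_L_of_ne_zero hs]
    intro v
    rw [Finsupp.smul_apply, Finsupp.single_apply]
    by_cases hv : v = v₀
    · rw [if_pos hv.symm, hv, hs₀]
      have : (Z.card : ℤ) ≤ M := by exact_mod_cast hZcard
      simp only [smul_eq_mul, mul_one]
      omega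
    · rw [if_neg (fun h => hv h.symm), hsv v hv]
      simp
  obtain ⟨t, h1, h2⟩ := hC s hs hmem
  refine ⟨t, ?_, fun Q hQ hQZ => ?_⟩
  · rw [finsum_mem_ne_eq_sum_map v₀ _ hv₀ H (fun v hv => by rw [hsv v hv]; push_cast; ring)]
      at h1
    exact h1
  · have h3 := h2 Q hQ (by rw [hsv Q hQ, Multiset.count_eq_zero_of_notMem hQZ]; simp)
    rw [finsum_mem_ne_eq_sum_map v₀ _ hv₀ (fun z => D z Q)
      (fun v hv => by rw [hsv v hv]; push_cast; ring), hs₀] at h3
    have e : (Z.map fun z => D z Q).sum - t - (Z.card : ℝ) * H Q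
        = (Z.map fun z => D z Q).sum - t + ((-(Z.card : ℤ) : ℤ) : ℝ) * H Q := by
      push_cast
      ring
    rw [e]
    exact h3

end Fermat.Agent.S17.H.Pairing
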