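import Mathlib
import Fermat.Agent.S17.H.Pairing.Curve
import Fermat.Agent.S17.R.FbInf
import Fermat.Agent.S17.Contract
import Fermat.Agent.S30.HeckeInputs

/-!
# Program MW (S17), strand H, block E: the exit of the block

For a curve (`K` algebraically closed, `F / K` a function field of one variable, base place
`v₀`), a height `H : Place K F → ℝ` and a symmetric pair term `D : Place K F → Place K F → ℝ`
satisfying `ChowLD v₀ H D` (= the Chow bound D1 and the global distance formula D2 of block D),

  `q := quad (ptClass htr v₀) (lamOff v₀ H D) n₀ : Pic0 K F → ℝ`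

satisfies the quasi-parallelogram law (`exists_quad`), and `q x` is, up to a bounded error,
minus the pairing `pair (lamOff v₀ H D) A B` of any two disjoint effective divisors `A`, `B` of
bounded degree with `[A - deg A • v₀] = x`, `[B - deg B • v₀] = -x` (`Core.quad_spec_neg`).

`exists_quad_JZero` is the instance for `J_0(N)` (base place = the cusp `∞`), in the literal
shape of the hypothesis `hq` of `Fermat.Agent.S17.H.heightDescent_of_fine`.
-/

set_option autoImplicit false

namespace Fermat.Agent.S17.H.Pairing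

open AlgebraicCurve Fermat.Agent.S17.R Fermat.Agent.S17.H.MovingEff

section Curve

variable {K F : Type*} [Field K] [Field F] [Algebra K F]

/-- What block E consumes from block D, for a height `H` on places and a pair term `D`:
for every `M` there is a constant `C` such that every `s ≠ 0` in `L(M v₀)` has a number `t`
(the height of its coefficient vector) with

* D1 (Chow): the sum of `H` over the zeros of `s` off `v₀` (with multiplicity) is `t + O(C)`;
* D2 (global distance formula): for every place `Q ≠ v₀` which is not a zero of `s`, the sum of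
  `D(·, Q)` over the zeros of `s` off `v₀` is `t + (number of these zeros) * H Q + O(C)`; the
  number of zeros off `v₀` is the pole order `-v₀.ord s`. -/
def ChowLD (v₀ : Place K F) (H : Place K F → ℝ) (D : Place K F → Place K F → ℝ) : Prop :=
  ∀ M : ℕ, ∃ C : ℝ, ∀ s : F, s ≠ 0 →
    s ∈ riemannRochSpace ((M : ℤ) • Finsupp.single v₀ (1 : ℤ)) →
    ∃ t : ℝ, |(∑ᶠ v ∈ {v : Place K F | v ≠ v₀}, ((v.ord s : ℤ) : ℝ) * H v) - t| ≤ C ∧
      ∀ Q : Place K F, Q ≠ v₀ → Q.ord s = 0 →
        |(∑ᶠ v ∈ {v : Place K F | v ≠ v₀}, ((v.ord s : ℤ) : ℝ) * D v Q) - t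
          + ((v₀.ord s : ℤ) : ℝ) * H Q| ≤ C

variable [IsAlgClosed K] [CharZero K] [Algebra.EssFiniteType K F]

/-- **Exit of block E** (level-free): the two hypotheses of the engine `Pairing/Core` hold, and
`quad (ptClass htr v₀) (lamOff v₀ H D) n₀` satisfies the quasi-parallelogram law. -/
theorem exists_quad (htr : Algebra.trdeg K F = 1) (v₀ : Place K F) (H : Place K F → ℝ)
    (D : Place K F → Place K F → ℝ) (hD : ∀ a b, D a b = D b a) (hD12 : ChowLD v₀ H D) :
    ∃ n₀ : ℕ, Moving (ptClass htr v₀) n₀ ∧
      PrincipalBound (ptClass htr v₀) (lamOff v₀ H D) ∧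
      ∃ C : ℝ, ∀ x y : Pic0 K F,
        |quad (ptClass htr v₀) (lamOff v₀ H D) n₀ (x + y)
          + quad (ptClass htr v₀) (lamOff v₀ H D) n₀ (x - y)
          - 2 * (quad (ptClass htr v₀) (lamOff v₀ H D) n₀ x
            + quad (ptClass htr v₀) (lamOff v₀ H D) n₀ y)| ≤ C := by
  obtain ⟨n₀, hMOV⟩ := moving_ptClass htr v₀
  have hPR : PrincipalBound (ptClass htr v₀) (lamOff v₀ H D) :=
    principalBound_curve htr v₀ H D hD12
  exact ⟨n₀, hMOV, hPR, quad_parallelogram (lamOff_symm v₀ H hD) hPR hMOV⟩

/-- `q x = -pair A B + O(1)` for disjoint effective divisors `A`, `B` of bounded degree with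
classes `x` and `-x`, in the vocabulary of the curve. -/
theorem quad_spec_neg_curve (htr : Algebra.trdeg K F = 1) (v₀ : Place K F) (H : Place K F → ℝ)
    {D : Place K F → Place K F → ℝ} (hD : ∀ a b, D a b = D b a) {n₀ : ℕ}
    (hMOV : Moving (ptClass htr v₀) n₀)
    (hPR : PrincipalBound (ptClass htr v₀) (lamOff v₀ H D)) (d : ℕ) :
    ∃ C : ℝ, ∀ A B : Multiset (Place K F), A.card ≤ d → B.card ≤ d → (∀ b ∈ B, b ∉ A) →
      cls (ptClass htr v₀) A + cls (ptClass htr v₀) B = 0 →
      |quad (ptClass htr v₀) (lamOff v₀ H D) n₀ (cls (ptClass htr v₀) A)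
        + pair (lamOff v₀ H D) A B| ≤ C :=
  quad_spec_neg (lamOff_symm v₀ H hD) hPR hMOV d

end Curve

section Modular

open ModularCurve

variable (N : ℕ) [NeZero N]

local notation "Qb" => AlgebraicClosure ℚ
local notation "Fb" => modularFunctionFieldBar

/-- **Exit of block E for `J_0(N)`**, base place the cusp `∞`: the function
`q = quad (ptClass _ (infPlace N)) (lamOff (infPlace N) H D) n₀` on `JZero N` satisfies the
quasi-parallelogram law, in the literal shape of the hypothesis `hq` of
`Fermat.Agent.S17.H.heightDescent_of_fine`. -/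
theorem exists_quad_JZero (H : Place Qb (Fb N) → ℝ) (D : Place Qb (Fb N) → Place Qb (Fb N) → ℝ)
    (hD : ∀ a b, D a b = D b a) (hD12 : ChowLD (infPlace N) H D) :
    ∃ n₀ : ℕ,
      Moving (ptClass (Fermat.Agent.S30.HeckeInputs.trdeg_bar N) (infPlace N)) n₀ ∧
      PrincipalBound (ptClass (Fermat.Agent.S30.HeckeInputs.trdeg_bar N) (infPlace N))
        (lamOff (infPlace N) H D) ∧
      ∃ C : ℝ, ∀ x y : JZero N,
        |quad (ptClass (Fermat.Agent.S30.HeckeInputs.trdeg_bar N) (infPlace N))
            (lamOff (infPlace N) H D) n₀ (x + y)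
          + quad (ptClass (Fermat.Agent.S30.HeckeInputs.trdeg_bar N) (infPlace N))
            (lamOff (infPlace N) H D) n₀ (x - y)
          - 2 * (quad (ptClass (Fermat.Agent.S30.HeckeInputs.trdeg_bar N) (infPlace N))
              (lamOff (infPlace N) H D) n₀ x
            + quad (ptClass (Fermat.Agent.S30.HeckeInputs.trdeg_bar N) (infPlace N))
              (lamOff (infPlace N) H D) n₀ y)| ≤ C :=
  exists_quad (Fermat.Agent.S30.HeckeInputs.trdeg_bar N) (infPlace N) H D hD hD12

end Modular

end Fermat.Agent.S17.H.Pairing
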