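import Mathlib
import Fermat.Agent.S17.H.Pairing.Exit
import Fermat.Agent.S17.R.Riemann

/-!
# Program MW (S17), strand H: the seam from block D to block E (abstract half)

`chowLD_of_basis` : the hypothesis `ChowLD v₀ H D` of block E from the exits of D1 (Chow) and
D2 (global distance formula) stated, as in `Glob.chow`, for an arbitrary linearly independent
family `ψ` in `L(M v₀)` and the height `ht n c` of the coefficient vector `c` of the section
`∑ i, c i • ψ i`.

`finsum_mem_mul_div` moves a division by a constant inside a `finsum` (the D1 exit divides the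
sum of the heights `hT (φ(v))` by `m0`).
-/

set_option autoImplicit false

namespace Fermat.Agent.S17.H.Pairing

open AlgebraicCurve Fermat.Agent.S17.R

theorem finsum_mem_mul_div {Pt : Type*} (S : Set Pt) (a h : Pt → ℝ) (m : ℝ) :
    (∑ᶠ v ∈ S, a v * h v) / m = ∑ᶠ v ∈ S, a v * (h v / m) := by
  rw [div_eq_mul_inv, finsum_mem_mul]
  refine finsum_mem_congr rfl fun v _ => ?_
  ring

variable {K F : Type*} [Field K] [Field F] [Algebra K F]
variable [IsAlgClosed K] [CharZero K] [Algebra.EssFiniteType K F]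

/-- **Seam D → E.**  `ChowLD v₀ H D` from D1 and D2 in the binder shape of `Glob.chow`: for
every linearly independent family `ψ` in `L(M v₀)` a constant which works for all coefficient
vectors `c ≠ 0`, the number `t` being `ht n c`. -/
theorem chowLD_of_basis (htr : Algebra.trdeg K F = 1) (v₀ : Place K F) (H : Place K F → ℝ)
    (D : Place K F → Place K F → ℝ) (ht : (n : ℕ) → (Fin n → K) → ℝ)
    (hD1 : ∀ (M n : ℕ) (ψ : Fin n → F), LinearIndependent K ψ →
      (∀ i, ψ i ∈ riemannRochSpace ((M : ℤ) • Finsupp.single v₀ (1 : ℤ))) →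
      ∃ C : ℝ, ∀ c : Fin n → K, c ≠ 0 →
        |(∑ᶠ v ∈ {v : Place K F | v ≠ v₀}, ((v.ord (∑ i, c i • ψ i) : ℤ) : ℝ) * H v)
          - ht n c| ≤ C)
    (hD2 : ∀ (M n : ℕ) (ψ : Fin n → F), LinearIndependent K ψ →
      (∀ i, ψ i ∈ riemannRochSpace ((M : ℤ) • Finsupp.single v₀ (1 : ℤ))) →
      ∃ C : ℝ, ∀ c : Fin n → K, c ≠ 0 → ∀ Q : Place K F, Q ≠ v₀ →
        Q.ord (∑ i, c i • ψ i) = 0 →
        |(∑ᶠ v ∈ {v : Place K F | v ≠ v₀}, ((v.ord (∑ i, c i • ψ i) : ℤ) : ℝ) * D v Q)
          - ht n c + ((v₀.ord (∑ i, c i • ψ i) : ℤ) : ℝ) * H Q| ≤ C) :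
    ChowLD v₀ H D := by
  intro M
  haveI : Module.Finite K ↥(riemannRochSpace ((M : ℤ) • Finsupp.single v₀ (1 : ℤ))) :=
    finite_L htr _
  let b := Module.finBasis K ↥(riemannRochSpace ((M : ℤ) • Finsupp.single v₀ (1 : ℤ)))
  have hψ : LinearIndependent K (fun i => (b i : F)) :=
    b.linearIndependent.map' (Submodule.subtype _) (Submodule.ker_subtype _)
  have hψM : ∀ i, (b i : F) ∈ riemannRochSpace ((M : ℤ) • Finsupp.single v₀ (1 : ℤ)) :=
    fun i => (b i).2
  obtain ⟨C₁, h1⟩ := hD1 M _ (fun i => (b i : F)) hψ hψM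
  obtain ⟨C₂, h2⟩ := hD2 M _ (fun i => (b i : F)) hψ hψM
  refine ⟨max C₁ C₂, fun s hs hsM => ?_⟩
  have hsum : ∑ i, (b.repr ⟨s, hsM⟩ i) • (b i : F) = s := by
    have h := congrArg (Submodule.subtype _) (b.sum_repr ⟨s, hsM⟩)
    rw [map_sum] at h
    simpa using h
  have hc : (fun i => b.repr ⟨s, hsM⟩ i) ≠ 0 := by
    intro h0
    apply hs
    rw [← hsum]
    refine Finset.sum_eq_zero fun i _ => ?_
    have : b.repr ⟨s, hsM⟩ i = 0 := congrFun h0 i
    rw [this, zero_smul]
  refine ⟨ht _ (fun i => b.repr ⟨s, hsM⟩ i), ?_, fun Q hQ hQs => ?_⟩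
  · have h3 := h1 _ hc
    rw [hsum] at h3
    exact h3.trans (le_max_left _ _)
  · have h3 := h2 _ hc Q hQ (by rw [hsum]; exact hQs)
    rw [hsum] at h3
    exact h3.trans (le_max_right _ _)

end Fermat.Agent.S17.H.Pairing
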