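import Mathlib
import Fermat.Agent.S17.H.Pairing.OfGlob
import Fermat.Agent.S17.H.Glob.PlaceHeight

/-!
# Program MW (S17), strand H: the seam from block D to block E, for D2 on bases of `L(k m₀ v₀)`

The exit of D2 (`Glob.ld_global`, row S17.H.D2) is stated for a BASIS `ψ` of `L(k m₀ v₀)`,
`0 < k`; the exit of D1 (`Glob.chow`) for an arbitrary linearly independent family in some
`L(M v₀)`.  `ChowLD` quantifies over all `s ≠ 0` in `L(M v₀)`: take `k = M + 1`, a basis of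
`L(k m₀ v₀) ⊇ L(M v₀)` and the coefficient vector of `s` in it — the SAME `t = ht c` in D1 and
in D2.

* `chowLD_of_basis_mul` : abstract in `H`, `D`, `ht`;
* `chowLD_of_chow_ld` : for `H v = hT (fun i => ev v (τ i)) / m₀` (= `Glob.plH ev τ m₀ v`), the
  hypotheses being verbatim the conclusions of `Glob.chow` and of `Glob.ld_global`.
-/

set_option autoImplicit false

namespace Fermat.Agent.S17.H.Pairing

open AlgebraicCurve Fermat.Agent.S17.R

section Abstract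

variable {K F : Type*} [Field K] [Field F] [Algebra K F]
variable [IsAlgClosed K] [CharZero K] [Algebra.EssFiniteType K F]

/-- **Seam D → E**, D2 on bases of `L(k m₀ v₀)` only. -/
theorem chowLD_of_basis_mul (htr : Algebra.trdeg K F = 1) (v₀ : Place K F) (H : Place K F → ℝ)
    (D : Place K F → Place K F → ℝ) (ht : (n : ℕ) → (Fin n → K) → ℝ) {m₀ : ℕ} (hm₀ : 0 < m₀)
    (hD1 : ∀ (M n : ℕ) (ψ : Fin n → F), LinearIndependent K ψ →
      (∀ i, ψ i ∈ riemannRochSpace ((M : ℤ) • Finsupp.single v₀ (1 : ℤ))) →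
      ∃ C : ℝ, ∀ c : Fin n → K, c ≠ 0 →
        |(∑ᶠ v ∈ {v : Place K F | v ≠ v₀}, ((v.ord (∑ i, c i • ψ i) : ℤ) : ℝ) * H v)
          - ht n c| ≤ C)
    (hD2 : ∀ k : ℕ, 0 < k → ∀ (n : ℕ) (ψ : Fin n → F), LinearIndependent K ψ →
      Submodule.span K (Set.range ψ)
        = riemannRochSpace (((k * m₀ : ℕ) : ℤ) • Finsupp.single v₀ (1 : ℤ)) →
      ∃ C : ℝ, ∀ c : Fin n → K, c ≠ 0 → ∀ Q : Place K F, Q ≠ v₀ →
        Q.ord (∑ i, c i • ψ i) = 0 →
        |(∑ᶠ v ∈ {v : Place K F | v ≠ v₀}, ((v.ord (∑ i, c i • ψ i) : ℤ) : ℝ) * D v Q)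
          - ht n c + ((v₀.ord (∑ i, c i • ψ i) : ℤ) : ℝ) * H Q| ≤ C) :
    ChowLD v₀ H D := by
  classical
  intro M
  have hfin : Module.Finite K
      ↥(riemannRochSpace ((((M + 1) * m₀ : ℕ) : ℤ) • Finsupp.single v₀ (1 : ℤ))) :=
    finite_L htr _
  let b := Module.finBasis K
    ↥(riemannRochSpace ((((M + 1) * m₀ : ℕ) : ℤ) • Finsupp.single v₀ (1 : ℤ)))
  have hψ : LinearIndependent K (fun i => (b i : F)) :=
    b.linearIndependent.map' (Submodule.subtype _) (Submodule.ker_subtype _)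
  have hψM : ∀ i, (b i : F)
      ∈ riemannRochSpace ((((M + 1) * m₀ : ℕ) : ℤ) • Finsupp.single v₀ (1 : ℤ)) :=
    fun i => (b i).2
  have hspan : Submodule.span K (Set.range fun i => (b i : F))
      = riemannRochSpace ((((M + 1) * m₀ : ℕ) : ℤ) • Finsupp.single v₀ (1 : ℤ)) := by
    have h1 : (Set.range fun i => (b i : F))
        = (Submodule.subtype _) '' Set.range b := by
      rw [← Set.range_comp]
      rfl
    rw [h1, ← Submodule.map_span, b.span_eq, Submodule.map_subtype_top]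
  have hle : riemannRochSpace ((M : ℤ) • Finsupp.single v₀ (1 : ℤ))
      ≤ riemannRochSpace ((((M + 1) * m₀ : ℕ) : ℤ) • Finsupp.single v₀ (1 : ℤ)) := by
    refine L_mono ?_
    rw [Finsupp.le_def]
    intro v
    rw [Finsupp.smul_apply, Finsupp.smul_apply, smul_eq_mul, smul_eq_mul]
    have h1 : (0 : ℤ) ≤ (Finsupp.single v₀ (1 : ℤ)) v := by
      rw [Finsupp.single_apply]
      split_ifs <;> norm_num
    have h2 : (M : ℤ) ≤ (((M + 1) * m₀ : ℕ) : ℤ) := by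
      have : M ≤ (M + 1) * m₀ := by nlinarith
      exact_mod_cast this
    exact mul_le_mul_of_nonneg_right h2 h1
  obtain ⟨C₁, h1⟩ := hD1 ((M + 1) * m₀) _ (fun i => (b i : F)) hψ hψM
  obtain ⟨C₂, h2⟩ := hD2 (M + 1) (Nat.succ_pos M) _ (fun i => (b i : F)) hψ hspan
  refine ⟨max C₁ C₂, fun s hs hsM => ?_⟩
  have hsM' := hle hsM
  have hsum : ∑ i, (b.repr ⟨s, hsM'⟩ i) • (b i : F) = s := by
    have h := congrArg (Submodule.subtype _) (b.sum_repr ⟨s, hsM'⟩)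
    rw [map_sum] at h
    simpa using h
  have hc : (fun i => b.repr ⟨s, hsM'⟩ i) ≠ 0 := by
    intro h0
    apply hs
    rw [← hsum]
    refine Finset.sum_eq_zero fun i _ => ?_
    have : b.repr ⟨s, hsM'⟩ i = 0 := congrFun h0 i
    rw [this, zero_smul]
  refine ⟨ht _ (fun i => b.repr ⟨s, hsM'⟩ i), ?_, fun Q hQ hQs => ?_⟩
  · have h3 := h1 _ hc
    rw [hsum] at h3
    exact h3.trans (le_max_left _ _)
  · have h3 := h2 _ hc Q hQ (by rw [hsum]; exact hQs)
    rw [hsum] at h3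
    exact h3.trans (le_max_right _ _)

end Abstract

section Record

open Fermat.Agent.S17.H.Glob

local notation "Qb" => AlgebraicClosure ℚ

variable {F : Type*} [Field F] [Algebra Qb F] [Algebra.EssFiniteType Qb F] {r : ℕ}

/-- **Seam D → E for the exits of record**: `hD1` is verbatim the conclusion of `Glob.chow`,
`hD2` verbatim the conclusion of `Glob.ld_global` (for a pair term `Dd`, there
`Glob.secD ev τ`). -/
theorem chowLD_of_chow_ld (htr : Algebra.trdeg Qb F = 1) (v₀ : Place Qb F)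
    (ev : Place Qb F → F → Qb) (τ : Fin r → F) {m₀ : ℕ} (hm₀ : 0 < m₀)
    (Dd : Place Qb F → Place Qb F → ℝ)
    (hD1 : ∀ (M n : ℕ) (ψ : Fin n → F), LinearIndependent Qb ψ →
      (∀ i, ψ i ∈ riemannRochSpace ((M : ℤ) • Finsupp.single v₀ (1 : ℤ))) →
      ∃ C : ℝ, ∀ c : Fin n → Qb, c ≠ 0 →
        |(∑ᶠ v ∈ {v : Place Qb F | v ≠ v₀},
            ((v.ord (∑ i, c i • ψ i) : ℤ) : ℝ) * hT (fun i => ev v (τ i))) / (m₀ : ℝ)
          - hT c| ≤ C)
    (hD2 : ∀ k : ℕ, 0 < k → ∀ (n : ℕ) (ψ : Fin n → F), LinearIndependent Qb ψ →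
      Submodule.span Qb (Set.range ψ)
        = riemannRochSpace (((k * m₀ : ℕ) : ℤ) • Finsupp.single v₀ (1 : ℤ)) →
      ∃ C : ℝ, ∀ c : Fin n → Qb, c ≠ 0 → ∀ Q : Place Qb F, Q ≠ v₀ →
        Q.ord (∑ i, c i • ψ i) = 0 →
        |(∑ᶠ v ∈ {v : Place Qb F | v ≠ v₀}, ((v.ord (∑ i, c i • ψ i) : ℤ) : ℝ) * Dd v Q)
          - hT c
          + ((v₀.ord (∑ i, c i • ψ i) : ℤ) : ℝ) * (hT (fun i => ev Q (τ i)) / (m₀ : ℝ))| ≤ C) :
    ChowLD v₀ (plH ev τ m₀) Dd := by
  refine chowLD_of_basis_mul htr v₀ _ _ (fun _ c => hT c) hm₀ (fun M n ψ hψ hψM => ?_) hD2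
  obtain ⟨C, hC⟩ := hD1 M n ψ hψ hψM
  refine ⟨C, fun c hc => ?_⟩
  have h := hC c hc
  rw [finsum_mem_mul_div] at h
  exact h

end Record

end Fermat.Agent.S17.H.Pairing
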