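import Mathlib
import Fermat.Agent.S17.H.Pairing.OfGlob
import Fermat.Agent.S17.H.Glob.PlaceHeight

/-!
# Program MW (S17), strand H: the seam from block D to block E for the heights of record

`chowLD_plH` : `Pairing.ChowLD v₀ (Glob.plH ev φ m₀) (Glob.plD ev φ)` from

* the exit of D1 in the literal shape of the conclusion of `Glob.chow` (the sum of
  `hT (φ(v))` over the zeros of the section, divided by `m₀`), and
* the exit of D2 (global distance formula) for `plD` and `plH`,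

both for an arbitrary linearly independent family `ψ` in `L(M v₀)`.
-/

set_option autoImplicit false

namespace Fermat.Agent.S17.H.Pairing

open AlgebraicCurve Fermat.Agent.S17.R Fermat.Agent.S17.H.Glob

local notation "Qb" => AlgebraicClosure ℚ

variable {F : Type*} [Field F] [Algebra Qb F] [Algebra.EssFiniteType Qb F] {r : ℕ}

/-- **Seam D → E for the heights of record.** -/
theorem chowLD_plH (htr : Algebra.trdeg Qb F = 1) (v₀ : Place Qb F)
    (ev : Place Qb F → F → Qb) (φ : Fin r → F) (m₀ : ℕ)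
    (hD1 : ∀ (M n : ℕ) (ψ : Fin n → F), LinearIndependent Qb ψ →
      (∀ i, ψ i ∈ riemannRochSpace ((M : ℤ) • Finsupp.single v₀ (1 : ℤ))) →
      ∃ C : ℝ, ∀ c : Fin n → Qb, c ≠ 0 →
        |(∑ᶠ v ∈ {v : Place Qb F | v ≠ v₀},
            ((v.ord (∑ i, c i • ψ i) : ℤ) : ℝ) * hT (fun i => ev v (φ i))) / (m₀ : ℝ)
          - hT c| ≤ C)
    (hD2 : ∀ (M n : ℕ) (ψ : Fin n → F), LinearIndependent Qb ψ →
      (∀ i, ψ i ∈ riemannRochSpace ((M : ℤ) • Finsupp.single v₀ (1 : ℤ))) →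
      ∃ C : ℝ, ∀ c : Fin n → Qb, c ≠ 0 → ∀ Q : Place Qb F, Q ≠ v₀ →
        Q.ord (∑ i, c i • ψ i) = 0 →
        |(∑ᶠ v ∈ {v : Place Qb F | v ≠ v₀},
            ((v.ord (∑ i, c i • ψ i) : ℤ) : ℝ) * plD ev φ v Q) - hT c
          + ((v₀.ord (∑ i, c i • ψ i) : ℤ) : ℝ) * plH ev φ m₀ Q| ≤ C) :
    ChowLD v₀ (plH ev φ m₀) (plD ev φ) := by
  refine chowLD_of_basis htr v₀ _ _ (fun _ c => hT c) (fun M n ψ hψ hψM => ?_) hD2
  obtain ⟨C, hC⟩ := hD1 M n ψ hψ hψM
  refine ⟨C, fun c hc => ?_⟩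
  have h := hC c hc
  rw [finsum_mem_mul_div] at h
  exact h

end Fermat.Agent.S17.H.Pairing
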